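import Mathlib
import Fermat.Agent.S22.GammaFG
import Fermat.Agent.S30.BettiHecke.Coset
import Fermat.Agent.S30.KummerChar.Root

set_option autoImplicit false
set_option linter.dupNamespace false

/-!
# S30 / E5 (Betti side): frozen definitions

* `IsSpecial γ` : `γ ∈ SL(2, ℤ)` has a fixed point in `ℍ` (elliptic elements, `±1`) or
  `trace ^ 2 = 4` (parabolic elements, `±1`; this is the Prelude's `IsParabolicHom` condition).
* `A N` : `Γ₀(N)^ab / ⟨special elements⟩`, written additively — the first homology of the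
  compactified modular curve `X₀(N)` (possibly with torsion, which nobody needs to exclude).
* `cls N : Additive Γ₀(N) →+ A N`, `lift` : the universal property, `fg`.
* `τ N ℓ : A N →+ A N` : the Hecke (transfer) endomorphism for a prime `ℓ ∤ N`, characterised by
  `τ (cls γ) = ∑ₓ cls (coc γ x)` (`τ_spec`, once such a map exists: row `E5.Tau`).
* `KR N m f c` : "`f ∈ F_N` is a Kummer function of exponent `m` with Kummer character `c`":
  `f ≠ 0`, `m ∣ div f`, and for some representation `f = a / b` (`a b ∈ A0 N`) there is a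
  holomorphic `m`-th root `H` of `θ a * θ b ^ (m - 1)` on `ℍ` with
  `H ∘ γ = exp (2πi c(cls γ) / m) • H` for all `γ ∈ Γ₀(N)`.
-/

noncomputable section

open scoped MatrixGroups
open AlgebraicCurve UpperHalfPlane ModularCurve CongruenceSubgroup
open Fermat.Agent.S24.HolH Fermat.Agent.S24.Theta Fermat.Agent.S24.Modular
open Fermat.Agent.S30.KummerChar

namespace Fermat.Agent.S30.E5

/-- Special elements of `SL(2, ℤ)`: those with a fixed point in the upper half plane, and those
of trace `±2`. -/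
def IsSpecial (γ : SL(2, ℤ)) : Prop := (∃ τ : ℍ, γ • τ = τ) ∨ γ.1.trace ^ 2 = 4

variable (N : ℕ)

/-- The subgroup of `Γ₀(N)^ab` generated by the special elements. -/
def specialSubgroup : AddSubgroup (Additive (Abelianization ↥(Gamma0 N))) :=
  AddSubgroup.closure {x | ∃ γ : ↥(Gamma0 N), IsSpecial (γ : SL(2, ℤ)) ∧
    x = Additive.ofMul (Abelianization.of γ)}

/-- `A N = Γ₀(N)^ab / ⟨special elements⟩` (additive). -/
def A : Type := Additive (Abelianization ↥(Gamma0 N)) ⧸ specialSubgroup N

instance : AddCommGroup (A N) := by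
  unfold A
  infer_instance

/-- The class of an element of `Γ₀(N)` in `A N`. -/
def cls : Additive ↥(Gamma0 N) →+ A N :=
  (QuotientAddGroup.mk' (specialSubgroup N)).comp (MonoidHom.toAdditive Abelianization.of)

theorem cls_surjective : Function.Surjective (cls N) := by
  intro y
  obtain ⟨x, rfl⟩ := QuotientAddGroup.mk'_surjective (specialSubgroup N) y
  obtain ⟨γ, hγ⟩ := QuotientGroup.mk_surjective (Additive.toMul x)
  refine ⟨Additive.ofMul γ, ?_⟩
  show QuotientAddGroup.mk' (specialSubgroup N) (Additive.ofMul (Abelianization.of γ)) = _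
  rw [show Abelianization.of γ = Additive.toMul x from hγ]
  rfl

theorem cls_eq_zero_of_special {γ : ↥(Gamma0 N)} (h : IsSpecial (γ : SL(2, ℤ))) :
    cls N (Additive.ofMul γ) = 0 := by
  show QuotientAddGroup.mk' (specialSubgroup N) (Additive.ofMul (Abelianization.of γ)) = 0
  rw [QuotientAddGroup.mk'_apply, QuotientAddGroup.eq_zero_iff]
  exact AddSubgroup.subset_closure ⟨γ, h, rfl⟩

/-- Two homomorphisms on `A N` agreeing on all classes are equal. -/
theorem hom_ext {B : Type*} [AddCommGroup B] {c d : A N →+ B}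
    (h : ∀ γ : ↥(Gamma0 N), c (cls N (Additive.ofMul γ)) = d (cls N (Additive.ofMul γ))) :
    c = d := by
  ext y
  obtain ⟨x, rfl⟩ := cls_surjective N y
  exact h (Additive.toMul x)

/-- Universal property of `A N`: homomorphisms on `Γ₀(N)` killing the special elements. -/
def lift {B : Type*} [AddCommGroup B] (φ : Additive ↥(Gamma0 N) →+ B)
    (hφ : ∀ γ : ↥(Gamma0 N), IsSpecial (γ : SL(2, ℤ)) → φ (Additive.ofMul γ) = 0) : A N →+ B :=
  QuotientAddGroup.lift (specialSubgroup N)
    (MonoidHom.toAdditiveLeft (Abelianization.lift (AddMonoidHom.toMultiplicativeRight φ)))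
    (by
      rw [specialSubgroup, AddSubgroup.closure_le]
      rintro x ⟨γ, hγ, rfl⟩
      show MonoidHom.toAdditiveLeft (Abelianization.lift (AddMonoidHom.toMultiplicativeRight φ))
        (Additive.ofMul (Abelianization.of γ)) = 0
      have h1 : Abelianization.lift (AddMonoidHom.toMultiplicativeRight φ) (Abelianization.of γ) =
          AddMonoidHom.toMultiplicativeRight φ γ := Abelianization.lift_apply_of _ γ
      have h2 : MonoidHom.toAdditiveLeft (Abelianization.lift (AddMonoidHom.toMultiplicativeRight φ))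
          (Additive.ofMul (Abelianization.of γ)) =
          Multiplicative.toAdd (Abelianization.lift (AddMonoidHom.toMultiplicativeRight φ)
            (Abelianization.of γ)) := rfl
      rw [h2, h1]
      exact hφ γ hγ)

theorem lift_cls {B : Type*} [AddCommGroup B] (φ : Additive ↥(Gamma0 N) →+ B)
    (hφ : ∀ γ : ↥(Gamma0 N), IsSpecial (γ : SL(2, ℤ)) → φ (Additive.ofMul γ) = 0)
    (x : Additive ↥(Gamma0 N)) : lift N φ hφ (cls N x) = φ x := by
  have h1 : Abelianization.lift (AddMonoidHom.toMultiplicativeRight φ)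
      (Abelianization.of (Additive.toMul x)) =
      AddMonoidHom.toMultiplicativeRight φ (Additive.toMul x) := Abelianization.lift_apply_of _ _
  show Multiplicative.toAdd (Abelianization.lift (AddMonoidHom.toMultiplicativeRight φ)
    (Abelianization.of (Additive.toMul x))) = φ x
  rw [h1]
  rfl

/-- `A N` is finitely generated. -/
theorem fg [NeZero N] : AddGroup.FG (A N) := by
  have : AddGroup.FG (Additive ↥(Gamma0 N)) :=
    GroupFG.iff_add_fg.mp (Fermat.Agent.S22.GammaFG.gamma0_fg N)
  exact AddGroup.fg_of_surjective (cls_surjective N)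

open Classical in
/-- The Hecke (transfer) endomorphism `τ_ℓ` of `A N` for a prime `ℓ ∤ N` (junk `0` otherwise):
the unique endomorphism with `τ (cls γ) = ∑ₓ cls (coc γ x)`. -/
def τ (ℓ : ℕ) : A N →+ A N :=
  if h : ℓ.Prime ∧ ¬ ℓ ∣ N then
    haveI : NeZero ℓ := ⟨h.1.ne_zero⟩
    if h' : ∃ t : A N →+ A N, ∀ γ : ↥(Gamma0 N), t (cls N (Additive.ofMul γ)) =
        ∑ x : OnePoint (ZMod ℓ), cls N (Additive.ofMul (BettiHecke.coc h.1 h.2 γ x))
    then h'.choose else 0
  else 0

theorem τ_spec {ℓ : ℕ} [NeZero ℓ] (hℓ : ℓ.Prime) (hℓN : ¬ ℓ ∣ N)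
    (h' : ∃ t : A N →+ A N, ∀ γ : ↥(Gamma0 N), t (cls N (Additive.ofMul γ)) =
        ∑ x : OnePoint (ZMod ℓ), cls N (Additive.ofMul (BettiHecke.coc hℓ hℓN γ x)))
    (γ : ↥(Gamma0 N)) :
    τ N ℓ (cls N (Additive.ofMul γ)) =
      ∑ x : OnePoint (ZMod ℓ), cls N (Additive.ofMul (BettiHecke.coc hℓ hℓN γ x)) := by
  have h : ℓ.Prime ∧ ¬ ℓ ∣ N := ⟨hℓ, hℓN⟩
  unfold τ
  rw [dif_pos h]
  have h'' : ∃ t : A N →+ A N, ∀ γ : ↥(Gamma0 N), t (cls N (Additive.ofMul γ)) =
      ∑ x : OnePoint (ZMod ℓ), cls N (Additive.ofMul (BettiHecke.coc h.1 h.2 γ x)) := h'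
  rw [dif_pos h'']
  exact h''.choose_spec γ

/-- The multiplier attached to a character `c : A N →+ ZMod m` at `γ ∈ Γ₀(N)`:
`exp (2πi c(cls γ) / m)`. -/
def chi {m : ℕ} [NeZero m] (c : A N →+ ZMod m) (γ : ↥(Gamma0 N)) : ℂ :=
  ZMod.stdAddChar (c (cls N (Additive.ofMul γ)))

/-- **The Kummer relation.** `f` is a Kummer function of exponent `m` with Kummer character
`c`. -/
def KR (m : ℕ) [NeZero m] (f : FN N) (c : A N →+ ZMod m) : Prop :=
  f ≠ 0 ∧ (∀ v : Place Kbar (FN N), (m : ℤ) ∣ v.ord f) ∧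
    ∃ (a b : A0 N) (H : HolH), b ≠ 0 ∧ f * (b : FN N) = (a : FN N) ∧
      IsKummerRoot iotaBar m a b H ∧
      ∀ γ : ↥(Gamma0 N), mult (γ : SL(2, ℤ)) H = chi N c γ

end Fermat.Agent.S30.E5

end
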