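import Mathlib
import Fermat.Agent.S30.Defs
import Fermat.Agent.S30.BettiLimit
import Fermat.Agent.S30.KummerHecke
import Fermat.Agent.S30.E5.Defs

set_option autoImplicit false
set_option linter.dupNamespace false

/-!
# S30 / E5 (Betti side): the frozen exit statements, one `Prop` per row

Every row owner proves `theorem xxx : E5.XxxStatement …` in his own file (sorry-free); the
Producer (`Producer.CharSystem N p`) is assembled from these Props with

* `A := E5.A N`, `fg := E5.fg N`, `τ := E5.τ N`,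
* `R n f c := E5.KR N (p ^ n) f c`,
* `heckeF ℓ := KummerHecke.heckeFN hℓ hℓN hz` (any primitive `ℓ`-th root of unity `z`).

Rows (see `tasks`, stmt S30, names `E5.*`):
`TauStatement`, `CharStatement`, `UniqStatement`, `MulStatement`, `PowStatement`,
`RedStatement`, `InjStatement`, `ExStatement`, `HeckeStatement`, `OccStatement`;
internal: `ConvStatement` (character trivial on special elements ⇒ `m ∣ div f`),
`ExRootStatement` (Eisenstein series with character + descent `ℂ → ℚ̄`).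
-/

noncomputable section

open scoped MatrixGroups
open AlgebraicCurve UpperHalfPlane ModularCurve CongruenceSubgroup
open Fermat.Agent.S24.HolH Fermat.Agent.S24.Theta Fermat.Agent.S24.Modular
open Fermat.Agent.S30.KummerChar

namespace Fermat.Agent.S30.E5

/-- **E5.Tau**: the transfer `γ ↦ ∑ₓ cls (coc γ x)` descends to an endomorphism of `A N`
(it is a homomorphism by `BettiHecke.coc_mul`, and it preserves the special subgroup by the
cycle argument). Together with `E5.τ_spec` this characterises `E5.τ N ℓ`. -/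
def TauStatement (N : ℕ) : Prop :=
  ∀ (ℓ : ℕ) [NeZero ℓ] (hℓ : ℓ.Prime) (hℓN : ¬ ℓ ∣ N),
    ∃ t : A N →+ A N, ∀ γ : ↥(Gamma0 N), t (cls N (Additive.ofMul γ)) =
      ∑ x : OnePoint (ZMod ℓ), cls N (Additive.ofMul (BettiHecke.coc hℓ hℓN γ x))

/-- **E5.Char**: every Kummer function has a Kummer character. -/
def CharStatement (N m : ℕ) [NeZero m] : Prop :=
  ∀ f : FN N, f ≠ 0 → (∀ v : Place Kbar (FN N), (m : ℤ) ∣ v.ord f) →
    ∃ c : A N →+ ZMod m, KR N m f c

/-- **E5.Uniq**: the Kummer character is determined by the function. -/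
def UniqStatement (N m : ℕ) [NeZero m] : Prop :=
  ∀ (f : FN N) (c d : A N →+ ZMod m), KR N m f c → KR N m f d → c = d

/-- **E5.Mul**. -/
def MulStatement (N m : ℕ) [NeZero m] : Prop :=
  ∀ (f g : FN N) (c d : A N →+ ZMod m), KR N m f c → KR N m g d → KR N m (f * g) (c + d)

/-- **E5.Pow**: `m`-th powers have trivial Kummer character. -/
def PowStatement (N m : ℕ) [NeZero m] : Prop :=
  ∀ g : FN N, g ≠ 0 → KR N m (g ^ m) 0

/-- **E5.Red**: a Kummer function of exponent `p^(n+1)` is one of exponent `p^n`, with the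
reduced character. -/
def RedStatement (N p : ℕ) [NeZero p] : Prop :=
  ∀ (n : ℕ) (f : FN N) (c : A N →+ ZMod (p ^ (n + 1))),
    KR N (p ^ (n + 1)) f c → KR N (p ^ n) f (BettiLimit.red (A N) p n c)

/-- **E5.Inj**: trivial Kummer character ⇒ `m`-th power in `F_N`. -/
def InjStatement (N m : ℕ) [NeZero m] : Prop :=
  ∀ f : FN N, KR N m f 0 → ∃ g : FN N, f = g ^ m

/-- **E5.Ex**: every character of `A N` is the Kummer character of a function in `F_N`. -/
def ExStatement (N m : ℕ) [NeZero m] : Prop :=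
  ∀ c : A N →+ ZMod m, ∃ f : FN N, KR N m f c

/-- **E5.Hecke**: the Kummer character of `T_ℓ f` is `c ∘ τ_ℓ`. -/
def HeckeStatement (N m : ℕ) [NeZero N] [NeZero m] : Prop :=
  ∀ (ℓ : ℕ) (hℓ : ℓ.Prime) (hℓN : ¬ ℓ ∣ N) (z : Kbarˣ) (hz : IsPrimitiveRoot z ℓ) (f : FN N)
    (c : A N →+ ZMod m), KR N m f c →
      KR N m (KummerHecke.heckeFN hℓ hℓN hz f) (c.comp (τ N ℓ))

/-- **E5.Occ**: the period map, an injective Hecke-equivariant map `S₂(Γ₀(N)) → Hom(A N, ℂ)`. -/
def OccStatement (N : ℕ) : Prop :=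
  ∃ P : CuspForm (Gamma0 N) 2 →ₗ[ℂ] (A N → ℂ),
    (∀ f a b, P f (a + b) = P f a + P f b) ∧ Function.Injective P ∧
      ∀ (ℓ : ℕ) (hℓ : ℓ.Prime) (hℓN : ¬ ℓ ∣ N) (f : CuspForm (Gamma0 N) 2) (a : A N),
        P (CuspForm.heckeTLin 2 hℓ hℓN f) a = P f (τ N ℓ a)

/-- **E5.Conv** (internal): a Kummer root whose multipliers are trivial on the special elements
of `Γ₀(N)` forces `m ∣ div f` (place → point dictionary over `ℚ̄`). -/
def ConvStatement (N m : ℕ) [NeZero m] : Prop :=
  ∀ (f : FN N) (a b : A0 N) (H : HolH), f ≠ 0 → b ≠ 0 → f * (b : FN N) = (a : FN N) →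
    IsKummerRoot iotaBar m a b H →
    (∀ γ : ↥(Gamma0 N), IsSpecial (γ : SL(2, ℤ)) → mult (γ : SL(2, ℤ)) H = 1) →
    ∀ v : Place Kbar (FN N), (m : ℤ) ∣ v.ord f

/-- **E5.ExRoot** (internal): every character of `Γ₀(N)` with values in `μ_m`, trivial on the
special elements, is the multiplier system of a Kummer root over `ℚ̄`
(Eisenstein series with character + rationality over `ℂ` + descent `ℂ → ℚ̄`). -/
def ExRootStatement (N m : ℕ) [NeZero m] : Prop :=
  ∀ χ : ↥(Gamma0 N) →* ℂˣ, (∀ γ, χ γ ^ m = 1) →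
    (∀ γ : ↥(Gamma0 N), IsSpecial (γ : SL(2, ℤ)) → χ γ = 1) →
    ∃ (a b : A0 N) (H : HolH), a ≠ 0 ∧ b ≠ 0 ∧ IsKummerRoot iotaBar m a b H ∧
      ∀ γ : ↥(Gamma0 N), mult (γ : SL(2, ℤ)) H = ((χ γ : ℂˣ) : ℂ)

end Fermat.Agent.S30.E5

end
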