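import Mathlib
import Fermat.Agent.S30.E5.Plan
import Fermat.Agent.S30.KummerConverse

set_option autoImplicit false
set_option linter.dupNamespace false

/-!
# S30 / E5 internal row `E5.Conv`: a Kummer root with multipliers trivial on the special
elements forces `m ∣ div f`

`convStatement N m : E5.ConvStatement N m`, an adapter of
`KummerConverse.dvd_ord_sub_of_isKummerRoot` (finite places: elliptic points; cusps: widths).
-/

noncomputable section

open scoped MatrixGroups
open AlgebraicCurve UpperHalfPlane ModularCurve CongruenceSubgroup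
open Fermat.Agent.S24.HolH Fermat.Agent.S24.Theta Fermat.Agent.S24.Modular
open Fermat.Agent.S30.KummerChar

namespace Fermat.Agent.S30.E5

namespace ConvRow

/-- Conjugates of powers of `T` have trace `2`, hence are special. -/
theorem isSpecial_conj_T_zpow (g : SL(2, ℤ)) (n : ℤ) :
    IsSpecial (g * ModularGroup.T ^ n * g⁻¹) := by
  refine Or.inr ?_
  have h1 : (g * ModularGroup.T ^ n * g⁻¹ : SL(2, ℤ)).1
      = g.1 * ((ModularGroup.T ^ n : SL(2, ℤ)).1 * (g⁻¹ : SL(2, ℤ)).1) := by
    rw [mul_assoc]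
    rfl
  have h2 : (g⁻¹ : SL(2, ℤ)).1 * g.1 = 1 := by
    have h3 : ((g⁻¹ * g : SL(2, ℤ))).1 = 1 := by rw [inv_mul_cancel]; rfl
    exact h3
  rw [h1, Matrix.trace_mul_comm, mul_assoc, h2, mul_one, ModularGroup.coe_T_zpow]
  simp [Matrix.trace_fin_two]

end ConvRow

/-- **Row `E5.Conv`.** -/
theorem convStatement (N : ℕ) [NeZero N] (m : ℕ) [NeZero m] : ConvStatement N m := by
  intro f a b H hf hb hab hH hsp v
  have hb' : (b : FN N) ≠ 0 := fun h0 => hb (Subtype.ext h0)
  have ha : a ≠ 0 := by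
    intro h0
    have h1 : f * (b : FN N) = 0 := by rw [hab, h0]; rfl
    exact mul_ne_zero hf hb' h1
  have hell : ∀ γ ∈ Gamma0 N, (∃ τ : ℍ, γ • τ = τ) → mult γ H = 1 :=
    fun γ hγ hfix => hsp ⟨γ, hγ⟩ (Or.inl hfix)
  have hpar : ∀ γ ∈ Gamma0 N, ∀ (g : SL(2, ℤ)) (n : ℤ),
      γ = g * ModularGroup.T ^ n * g⁻¹ → mult γ H = 1 := by
    intro γ hγ g n hg
    refine hsp ⟨γ, hγ⟩ ?_
    show IsSpecial γ
    rw [hg]
    exact ConvRow.isSpecial_conj_T_zpow g n
  exact KummerConverse.divBy_of_isKummerRoot (NeZero.pos m) ha hb hH hell hpar f hab v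

end Fermat.Agent.S30.E5

end
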