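import Fermat.Agent.S30.E5.Plan
import Fermat.Agent.S30.DescentInst.Glue
import Fermat.Agent.S30.DescentInst.AutStable
import Fermat.Agent.S30.DescentInst.XRoot
import Fermat.Agent.S30.KummerDescentInst

set_option autoImplicit false
set_option linter.dupNamespace false

/-!
# E5.ExRoot: every character is the multiplier system of a Kummer root over `ℚ̄`

Assembly of the descent `ℂ → ℚ̄`:

* `EisRoot.xRoot χ` (helper249): the `q`-expansion `x0` of `E_χ / E₄` over `ℂ`;
  `DescentInst.divH_xRoot`, `hasChar_xRoot` (helper1): `x0 ^ m` is `m`-divisible and `x0` has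
  character `χ`;
* `DescentInst.divH_coeffMap` (helper261): `m`-divisibility is stable under `Aut(ℂ)`;
* `DescentInst.horb_of_stab`: hence the `Aut(ℂ)`-orbit of `x0` meets finitely many classes;
* `KummerDescent.exists_descent_gens` (helper34): descent to `y ∈ ℚ̄((q))`, `y ^ m ∈ F_N`,
  `y = u · x0` over `ℂ`;
* `DescentInst.exists_kummerRoot_of_descent`: `y ^ m = a / b` has a Kummer root with
  multiplier `χ`.
-/

noncomputable section

open scoped MatrixGroups
open AlgebraicCurve UpperHalfPlane ModularCurve CongruenceSubgroup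
open Fermat.Agent.S24.HolH Fermat.Agent.S24.Theta Fermat.Agent.S24.Modular
open Fermat.Agent.S30.KummerChar Fermat.Agent.S30.DescentInst

namespace Fermat.Agent.S30.E5

/-- An upper triangular element of `SL(2, ℤ)` has trace `±2`. -/
theorem trace_sq_of_lower_left_eq_zero (γ : SL(2, ℤ))
    (h : (γ : Matrix (Fin 2) (Fin 2) ℤ) 1 0 = 0) :
    (γ : Matrix (Fin 2) (Fin 2) ℤ).trace ^ 2 = 4 := by
  have hdet := γ.det_coe
  rw [Matrix.det_fin_two, h, mul_zero, sub_zero] at hdet
  rw [Matrix.trace_fin_two]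
  rcases Int.eq_one_or_neg_one_of_mul_eq_one' hdet with ⟨h1, h2⟩ | ⟨h1, h2⟩
  · rw [h1, h2]; norm_num
  · rw [h1, h2]; norm_num

/-- **E5.ExRoot** for `N ≠ 0`. -/
theorem exRoot_of_neZero (N m : ℕ) [NeZero N] [NeZero m] : ExRootStatement N m := by
  intro χ hχm hspecial
  have hm : 0 < m := Nat.pos_of_ne_zero (NeZero.ne m)
  have hpar : ∀ γ : Gamma0 N, ((γ : SL(2, ℤ)) : Matrix (Fin 2) (Fin 2) ℤ) 1 0 = 0 → χ γ = 1 :=
    fun γ hγ => hspecial γ (Or.inr (trace_sq_of_lower_left_eq_zero _ hγ))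
  let φ' : Gamma0 N →* rootsOfUnity m ℂ :=
    { toFun := fun γ => ⟨χ γ, (mem_rootsOfUnity _ _).mpr (hχm γ)⟩
      map_one' := Subtype.ext (map_one χ)
      map_mul' := fun γ δ => Subtype.ext (map_mul χ γ δ) }
  have hφ' : ∀ γ, (((φ' γ : rootsOfUnity m ℂ) : ℂˣ) : ℂ) = χ γ := fun γ => rfl
  have hD : DivH N m (Fermat.Agent.S30.EisRoot.xRoot χ ^ m) := divH_xRoot N m hm χ hχm hpar
  have hchar : HasChar N m (Fermat.Agent.S30.EisRoot.xRoot χ) φ' :=
    hasChar_xRoot N m hm χ hχm hpar φ' hφ'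
  have hx0 : Fermat.Agent.S30.EisRoot.xRoot χ ≠ 0 := by
    intro h
    have h1 := hD.ne_zero
    rw [h, zero_pow hm.ne'] at h1
    exact h1 rfl
  have horb := horb_of_stab N m hm (fun σ f hf => divH_coeffMap N m σ hf) _ hD
  obtain ⟨y, hy, hym, u, hu, hu0, hyu⟩ :=
    Fermat.Agent.S30.KummerDescent.exists_descent_gens N iotaBar m hm _ hx0 hD.mem_FC horb
  have hym' : y ^ m ∈ IntermediateField.adjoin Kbar (Fermat.Agent.S24.DegreeGen.gens Kbar N) := by
    rw [← Fermat.Agent.S24.DegreeGen.laurentBaseChange_full_eq_adjoin]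
    exact hym
  obtain ⟨a, b, H, ha, hb, -, hH, hHm, hφ⟩ :=
    exists_kummerRoot_of_descent iotaBar hm φ' hchar hy hym' hu hu0 hyu
  refine ⟨a, b, H, ha, hb, hHm, fun γ => ?_⟩
  apply mult_eq_of_eq hH
  rw [hφ γ, Algebra.smul_def]
  rfl

/-- **E5.ExRoot** (also at the degenerate level `N = 0`, where every element of `Γ₀(0)` is
special and the statement is trivial). -/
theorem exRoot (N m : ℕ) [NeZero m] : ExRootStatement N m := by
  rcases Nat.eq_zero_or_pos N with rfl | hN
  · intro χ _ hspecial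
    have hm : 0 < m := Nat.pos_of_ne_zero (NeZero.ne m)
    have hχ : ∀ γ : Gamma0 0, χ γ = 1 := by
      intro γ
      apply hspecial γ
      right
      apply trace_sq_of_lower_left_eq_zero
      have h := γ.2
      rw [Gamma0_mem] at h
      exact_mod_cast h
    refine ⟨1, 1, 1, one_ne_zero, one_ne_zero, ?_, fun γ => ?_⟩
    · show (1 : HolH) ^ m = theta iotaBar 0 1 * theta iotaBar 0 1 ^ (m - 1)
      simp
    · rw [hχ γ]
      simpa using mult_eq_one_of_compSL_eq (one_ne_zero (α := HolH)) (map_one (compSL (γ : SL(2, ℤ))))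
  · have : NeZero N := ⟨hN.ne'⟩
    exact exRoot_of_neZero N m

end Fermat.Agent.S30.E5

end
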