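import Mathlib
import Fermat.Agent.S30.E5.Plan

set_option autoImplicit false
set_option linter.dupNamespace false

/-!
# S30 / E5 row `E5.Hecke`: the Kummer character of `T_ℓ f` is `c ∘ τ_ℓ`

`heckeStatement N m hTau hConv : E5.HeckeStatement N m`, from

* `KummerHecke.exists_isKummerRoot_heckeFN` (the Kummer root `H'` of `T_ℓ f`, with multipliers
  `mult γ H' = ∏ₓ mult (coc γ x) H`),
* `E5.τ_spec` (with `hTau : TauStatement N`) and additivity of `ZMod.stdAddChar`,
* `hConv : ConvStatement N m` for `m ∣ div (T_ℓ f)` (the multipliers of `H'` are trivial on the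
  special elements because `cls` kills them).
-/

noncomputable section

open scoped MatrixGroups
open AlgebraicCurve UpperHalfPlane ModularCurve CongruenceSubgroup
open Fermat.Agent.S24.HolH Fermat.Agent.S24.Theta Fermat.Agent.S24.Modular
open Fermat.Agent.S30.KummerChar

namespace Fermat.Agent.S30.E5

namespace HeckeRow

/-- `ZMod.stdAddChar` turns finite sums into products. -/
theorem stdAddChar_finset_sum {m : ℕ} [NeZero m] {κ : Type*} (s : Finset κ) (g : κ → ZMod m) :
    (ZMod.stdAddChar (∑ i ∈ s, g i) : ℂ) = ∏ i ∈ s, ZMod.stdAddChar (g i) := by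
  classical
  induction s using Finset.induction_on with
  | empty => simp
  | insert a s ha ih =>
    rw [Finset.sum_insert ha, Finset.prod_insert ha, AddChar.map_add_eq_mul, ih]

/-- The multipliers of the Kummer root of `T_ℓ f` are those of the character `c ∘ τ_ℓ`. -/
theorem chi_comp_τ (N : ℕ) {m : ℕ} [NeZero m] (hTau : TauStatement N) {ℓ : ℕ} [NeZero ℓ]
    (hℓ : ℓ.Prime) (hℓN : ¬ ℓ ∣ N) (c : A N →+ ZMod m) (γ : ↥(Gamma0 N)) :
    chi N (c.comp (τ N ℓ)) γ
      = ∏ x : OnePoint (ZMod ℓ), chi N c (BettiHecke.coc hℓ hℓN γ x) := by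
  unfold chi
  rw [AddMonoidHom.comp_apply, τ_spec N hℓ hℓN (hTau ℓ hℓ hℓN) γ, map_sum,
    stdAddChar_finset_sum]

/-- Characters of `A N` are trivial on the special elements. -/
theorem chi_eq_one_of_special (N : ℕ) {m : ℕ} [NeZero m] (c : A N →+ ZMod m) {γ : ↥(Gamma0 N)}
    (h : IsSpecial (γ : SL(2, ℤ))) : chi N c γ = 1 := by
  unfold chi
  rw [cls_eq_zero_of_special N h, map_zero, AddChar.map_zero_eq_one]

end HeckeRow

open HeckeRow in
/-- **Row `E5.Hecke`.** -/
theorem heckeStatement (N : ℕ) [NeZero N] (m : ℕ) [NeZero m] (hTau : TauStatement N)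
    (hConv : ConvStatement N m) : HeckeStatement N m := by
  intro ℓ hℓ hℓN z hz f c ⟨hf, _, a, b, H, hb, hab, hH, hmult⟩
  have : NeZero ℓ := ⟨hℓ.ne_zero⟩
  have hb' : (b : FN N) ≠ 0 := fun h0 => hb (Subtype.ext h0)
  have ha : a ≠ 0 := by
    intro h0
    have h1 : f * (b : FN N) = 0 := by rw [hab, h0]; rfl
    exact mul_ne_zero hf hb' h1
  obtain ⟨a', b', H', _, hb'', hab', hH', hmult'⟩ :=
    KummerHecke.exists_isKummerRoot_heckeFN (ι := iotaBar) (NeZero.pos m) hℓ hℓN hz ha hb hH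
  have hfab : (a : FN N) / (b : FN N) = f := by
    rw [← hab]
    exact mul_div_cancel_right₀ f hb'
  rw [hfab] at hab'
  have hTf := KummerHecke.heckeFN_ne_zero hℓ hℓN hz hf
  have hchi : ∀ γ : ↥(Gamma0 N), mult (γ : SL(2, ℤ)) H' = chi N (c.comp (τ N ℓ)) γ := by
    intro γ
    rw [hmult' γ, chi_comp_τ N hTau hℓ hℓN c γ]
    exact Finset.prod_congr rfl fun x _ => hmult _
  refine ⟨hTf, ?_, a', b', H', hb'', hab', hH', hchi⟩
  refine hConv _ a' b' H' hTf hb'' hab' hH' ?_
  intro γ hγ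
  rw [hchi γ, chi_eq_one_of_special N _ hγ]

end Fermat.Agent.S30.E5

end
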