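import Fermat.Agent.S30.E5.Plan
import Fermat.Agent.S30.KummerKernel

set_option autoImplicit false
set_option linter.dupNamespace false

/-!
# S30 / E5, row `E5.Inj`: the kernel of the Kummer character

`theorem inj (N m) [NeZero N] [NeZero m] : E5.InjStatement N m` — a Kummer function with trivial
Kummer character is an `m`-th power in `F_N`.  (From `KummerKernel.exists_pow_eq_of_mult_eq_one`:
a `Γ₀(N)`-invariant holomorphic `m`-th root has `ℚ̄`-rational `q`-expansions at all cusps.)

`[NeZero N]` is necessary: for `N = 0` the field `F_0 = ℚ̄(j(q^d) : d ≥ 1)` is the union of all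
`F_M` and `Γ₀(0) = {±T^n}`, and the statement fails there.
-/

noncomputable section

open scoped MatrixGroups
open AlgebraicCurve UpperHalfPlane ModularCurve CongruenceSubgroup
open Fermat.Agent.S24.HolH Fermat.Agent.S24.Theta Fermat.Agent.S24.Modular
open Fermat.Agent.S30.KummerChar

namespace Fermat.Agent.S30.E5

namespace Inj

/-- The multiplier attached to the zero character is `1`. -/
theorem chi_zero (N : ℕ) {m : ℕ} [NeZero m] (γ : ↥(Gamma0 N)) :
    chi N (0 : A N →+ ZMod m) γ = 1 := by
  unfold chi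
  rw [AddMonoidHom.zero_apply]
  exact AddChar.map_zero_eq_one _

/-- Kernel of the Kummer character, for an arbitrary representation: if `f = a / b` has a Kummer
root all of whose multipliers on `Γ₀(N)` are `1`, then `f` is an `m`-th power in `F_N`. -/
theorem exists_eq_pow_of_mult_eq_one (N : ℕ) [NeZero N] {m : ℕ} (hm : 0 < m) {f : FN N}
    {a b : A0 N} (hb : b ≠ 0) (hab : f * (b : FN N) = (a : FN N)) {H : HolH}
    (hH : IsKummerRoot iotaBar m a b H)
    (hχ : ∀ γ : ↥(Gamma0 N), mult (γ : SL(2, ℤ)) H = 1) : ∃ g : FN N, f = g ^ m := by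
  obtain ⟨y, hy⟩ := KummerKernel.exists_pow_eq_of_mult_eq_one (ι := iotaBar) hm hb hH
    (fun γ hγ => hχ ⟨γ, hγ⟩)
  refine ⟨y, ?_⟩
  have hb' : (b : FN N) ≠ 0 := fun h => hb (Subtype.ext h)
  rw [hy, eq_div_iff hb', hab]

end Inj

/-- **E5.Inj**: trivial Kummer character ⇒ `m`-th power in `F_N`. -/
theorem inj (N m : ℕ) [NeZero N] [NeZero m] : InjStatement N m := by
  rintro f ⟨-, -, a, b, H, hb, hab, hH, hmult⟩
  refine Inj.exists_eq_pow_of_mult_eq_one N (Nat.pos_of_ne_zero (NeZero.ne m)) hb hab hH fun γ => ?_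
  rw [hmult γ, Inj.chi_zero]

end Fermat.Agent.S30.E5

end
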