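/-
S30 / E5 row `E5.Occ` (tasks#279, helper22).

`theorem occStatement (N) [NeZero N] (hTau : TauStatement N) : OccStatement N` —
the period map `f ↦ (a ↦ ∫_a f)` as an injective, Hecke-equivariant linear map
`S₂(Γ₀(N)) → (A N → ℂ)`.

* `P f := E5.lift N (periodMap N f) _` : the period homomorphism of `f` kills the special
  elements (trace² = 4: `S21.periodMap_mem_parabolicHoms`; fixed point `τ`:
  `S21.periodMap_apply` at the base point `τ`);
* linear: `S21.periodMap_add`, `S21.periodMap_smul`;
* injective: `S21.periodHomPair_injective` at the pair `(f, 0)`;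
* Hecke: `BettiHecke.tHom_periodMap` + `E5.τ_spec`.
-/
import Mathlib
import Fermat.Agent.S21.Assembly
import Fermat.Agent.S30.BettiHecke.Period
import Fermat.Agent.S30.E5.Plan

set_option autoImplicit false
set_option linter.dupNamespace false

noncomputable section

open scoped MatrixGroups
open UpperHalfPlane ModularCurve ModularCurve.Period CongruenceSubgroup

namespace Fermat.Agent.S30.E5.Occ

variable (N : ℕ)

/-- The period homomorphism of a cusp form kills the special elements of `Γ₀(N)`. -/
theorem periodMap_special [NeZero N] (f : CuspForm (Gamma0 N) 2) (γ : ↥(Gamma0 N))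
    (hγ : IsSpecial (γ : SL(2, ℤ))) : periodMap N f (Additive.ofMul γ) = 0 := by
  rcases hγ with ⟨τ, hτ⟩ | htr
  · obtain ⟨F, hF⟩ := Fermat.Agent.S21.exists_primitive N f
    rw [Fermat.Agent.S21.periodMap_apply N hF γ τ, hτ, sub_self]
  · have h := Fermat.Agent.S21.periodMap_mem_parabolicHoms N f
    rw [mem_parabolicHoms_iff] at h
    exact h γ htr

/-- The period map with values in functions on `A N`. -/
def perFun [NeZero N] (f : CuspForm (Gamma0 N) 2) : A N →+ ℂ :=
  lift N (periodMap N f) (periodMap_special N f)

theorem perFun_cls [NeZero N] (f : CuspForm (Gamma0 N) 2) (x : Additive ↥(Gamma0 N)) :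
    perFun N f (cls N x) = periodMap N f x :=
  lift_cls N _ _ x

/-- The period map `S₂(Γ₀(N)) → (A N → ℂ)`, linear in the form. -/
def perLin [NeZero N] : CuspForm (Gamma0 N) 2 →ₗ[ℂ] (A N → ℂ) where
  toFun f := fun a => perFun N f a
  map_add' f g := by
    funext a
    obtain ⟨x, rfl⟩ := cls_surjective N a
    show perFun N (f + g) (cls N x) = perFun N f (cls N x) + perFun N g (cls N x)
    rw [perFun_cls, perFun_cls, perFun_cls, Fermat.Agent.S21.periodMap_add]
    rfl
  map_smul' c f := by
    funext a
    obtain ⟨x, rfl⟩ := cls_surjective N a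
    show perFun N (c • f) (cls N x) = c • perFun N f (cls N x)
    rw [perFun_cls, perFun_cls, Fermat.Agent.S21.periodMap_smul]
    rfl

theorem perLin_apply [NeZero N] (f : CuspForm (Gamma0 N) 2) (a : A N) :
    perLin N f a = perFun N f a := rfl

/-- The holomorphic period map is injective (from the injectivity of the Eichler–Shimura
pairing). -/
theorem periodMap_eq_zero [NeZero N] {f : CuspForm (Gamma0 N) 2} (h : periodMap N f = 0) :
    f = 0 := by
  have h0 : periodMap N (0 : CuspForm (Gamma0 N) 2) = 0 := by
    have := Fermat.Agent.S21.periodMap_smul N (0 : ℂ) (0 : CuspForm (Gamma0 N) 2)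
    rw [zero_smul, zero_smul] at this
    exact this
  have h1 : periodHomPair N (f, 0) = periodHomPair N (0, 0) := by
    rw [Fermat.Agent.S21.periodHomPair_apply, Fermat.Agent.S21.periodHomPair_apply, h, h0]
  have h2 := Fermat.Agent.S21.periodHomPair_injective N h1
  exact (Prod.mk.inj h2).1

theorem perLin_injective [NeZero N] : Function.Injective (perLin N) := by
  rw [← LinearMap.ker_eq_bot, LinearMap.ker_eq_bot']
  intro f hf
  apply periodMap_eq_zero N
  refine AddMonoidHom.ext fun x => ?_
  have := congrFun hf (cls N x)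
  rw [perLin_apply, perFun_cls] at this
  exact this

/-- **Row `E5.Occ`.** -/
theorem occStatement [NeZero N] (hTau : TauStatement N) : OccStatement N := by
  refine ⟨perLin N, fun f a b => ?_, perLin_injective N, ?_⟩
  · show perFun N f (a + b) = perFun N f a + perFun N f b
    exact map_add _ a b
  · intro ℓ hℓ hℓN f a
    have : NeZero ℓ := ⟨hℓ.ne_zero⟩
    obtain ⟨x, rfl⟩ := cls_surjective N a
    obtain ⟨γ, rfl⟩ := Additive.ofMul.surjective x
    show perFun N (CuspForm.heckeTLin 2 hℓ hℓN f) (cls N (Additive.ofMul γ))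
      = perFun N f (τ N ℓ (cls N (Additive.ofMul γ)))
    rw [τ_spec N hℓ hℓN (hTau ℓ hℓ hℓN) γ, map_sum, perFun_cls,
      ← BettiHecke.tHom_periodMap hℓ hℓN f, BettiHecke.tHom_apply]
    exact Finset.sum_congr rfl fun x _ => (perFun_cls N f _).symm

end Fermat.Agent.S30.E5.Occ
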