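import Mathlib
import Fermat.Agent.S30.BettiA
import Fermat.Agent.S30.E5.Plan

set_option autoImplicit false
set_option linter.dupNamespace false

/-!
# S30 / E5 row `E5.Tau`: the transfer descends to `E5.A N`

`tauStatement N : E5.TauStatement N`: for every prime `ℓ ∤ N` there is an endomorphism `t` of
`E5.A N = Γ₀(N)^ab / ⟨special⟩` with `t (cls γ) = ∑ₓ cls (coc γ x)`.

* `E5.Tau.trace_sq_le_of_fixed` : an element of `SL(2, ℤ)` with a fixed point in `ℍ` has
  `trace ^ 2 ≤ 4`; hence `IsSpecial γ ↔ trace ^ 2 ≤ 4` (`E5.Tau.mem_peSet_iff_isSpecial`), i.e. the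
  special elements of `Γ₀(N)` are exactly `BettiA.peSet N`.
* `E5.Tau.tHom_cls_eq_zero` : the CYCLE LEMMA for `E5.cls` (sum over the cycles of `rPerm γ`
  with `BettiA.sum_eq_zero_of_cycles`; along a cycle of length `k` the sum is the class of
  `coc (γ ^ k) x`, a real conjugate of `γ ^ k`, which has `trace ^ 2 ≤ 4` again).
-/

noncomputable section

open scoped MatrixGroups
open CongruenceSubgroup UpperHalfPlane
open Fermat.Agent.S30.BettiHecke

namespace Fermat.Agent.S30.E5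

namespace Tau

/-- An element of `SL(2, ℤ)` with a fixed point in the upper half plane has `trace ^ 2 ≤ 4`. -/
theorem trace_sq_le_of_fixed (g : SL(2, ℤ)) (τ : ℍ) (h : g • τ = τ) :
    (g 0 0 + g 1 1) ^ 2 ≤ 4 := by
  have hdet : g 0 0 * g 1 1 - g 0 1 * g 1 0 = 1 := by
    have := g.det_coe
    rwa [Matrix.det_fin_two] at this
  set a : ℝ := ((g 0 0 : ℤ) : ℝ) with ha
  set b : ℝ := ((g 0 1 : ℤ) : ℝ) with hb
  set c : ℝ := ((g 1 0 : ℤ) : ℝ) with hc
  set d : ℝ := ((g 1 1 : ℤ) : ℝ) with hd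
  have hdetR : a * d - b * c = 1 := by
    rw [ha, hb, hc, hd]
    exact_mod_cast hdet
  have hy : 0 < τ.im := τ.im_pos
  have h1 : ((g • τ : ℍ) : ℂ) = (τ : ℂ) := by rw [h]
  rw [coe_specialLinearGroup_apply] at h1
  have hden : ((algebraMap ℤ ℝ (g 1 0) : ℝ) : ℂ) * (τ : ℂ)
      + ((algebraMap ℤ ℝ (g 1 1) : ℝ) : ℂ) ≠ 0 := by
    intro h0
    have him := congrArg Complex.im h0
    have hre := congrArg Complex.re h0
    simp only [algebraMap_int_eq, eq_intCast, Complex.add_im, Complex.mul_im, Complex.ofReal_re,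
      Complex.ofReal_im, zero_mul, add_zero, Complex.zero_im, Complex.add_re, Complex.mul_re,
      sub_zero, Complex.zero_re, UpperHalfPlane.coe_im, UpperHalfPlane.coe_re] at him hre
    have hc0 : c = 0 := by
      rcases mul_eq_zero.mp him with h2 | h2
      · exact h2
      · exact absurd h2 hy.ne'
    have hd0 : d = 0 := by
      rw [← hc, hc0, zero_mul, zero_add] at hre
      exact hre
    rw [hc0, hd0] at hdetR
    norm_num at hdetR
  rw [div_eq_iff hden] at h1
  have hre := congrArg Complex.re h1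
  have him := congrArg Complex.im h1
  simp only [algebraMap_int_eq, eq_intCast, Complex.add_im, Complex.mul_im, Complex.ofReal_re,
    Complex.ofReal_im, zero_mul, add_zero, Complex.add_re, Complex.mul_re,
    sub_zero, UpperHalfPlane.coe_im, UpperHalfPlane.coe_re] at him hre
  have e1 : a - d = 2 * c * τ.re := by
    have h2 : τ.im * (a - d - 2 * c * τ.re) = 0 := by linear_combination him
    rcases mul_eq_zero.mp h2 with h3 | h3
    · exact absurd h3 hy.ne'
    · linarith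
  have e2 : b = -c * (τ.re ^ 2 + τ.im ^ 2) := by linear_combination hre - τ.re * e1
  have e3 : (a + d) ^ 2 = 4 - 4 * c ^ 2 * τ.im ^ 2 := by
    linear_combination (a - d + 2 * c * τ.re) * e1 + 4 * hdetR + 4 * c * e2
  have key : (a + d) ^ 2 ≤ 4 := by
    rw [e3]
    nlinarith [sq_nonneg (c * τ.im)]
  rw [ha, hd] at key
  exact_mod_cast key

variable {N : ℕ}

/-- The special elements of `Γ₀(N)` are exactly those of `trace ^ 2 ≤ 4`. -/
theorem mem_peSet_iff_isSpecial (γ : ↥(Gamma0 N)) :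
    γ ∈ BettiA.peSet N ↔ IsSpecial (γ : SL(2, ℤ)) := by
  rw [BettiA.mem_peSet]
  constructor
  · intro h
    rcases lt_or_eq_of_le h with hlt | heq
    · exact Or.inl (BettiA.exists_fixed_of_trace_sq_lt _ hlt)
    · right
      rw [← BettiA.trG_eq_trace]
      exact heq
  · rintro (⟨τ, hτ⟩ | h)
    · exact trace_sq_le_of_fixed _ τ hτ
    · rw [BettiA.trG_eq_trace]
      exact h.le

variable {ℓ : ℕ}

/-- The value of a homomorphism on the cocycle of a power is the sum of its values along the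
orbit. -/
theorem hom_coc_pow {M : Type*} [AddCommGroup M] (c : Additive ↥(Gamma0 N) →+ M)
    (hℓ : ℓ.Prime) (hℓN : ¬ ℓ ∣ N) (γ : ↥(Gamma0 N)) (k : ℕ) (x : OnePoint (ZMod ℓ)) :
    c (Additive.ofMul (coc hℓ hℓN (γ ^ k) x)) =
      ∑ i ∈ Finset.range k,
        c (Additive.ofMul (coc hℓ hℓN γ ((rPerm hℓ (γ : SL(2, ℤ)) ^ i) x))) := by
  induction k generalizing x with
  | zero =>
    rw [pow_zero, coc_one, Finset.sum_range_zero]
    exact map_zero _
  | succ k ih =>
    rw [pow_succ', coc_mul, ofMul_mul, map_add, ih, Finset.sum_range_succ', add_comm]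
    congr 1

/-- CYCLE LEMMA for `E5.cls`: the transfer of the class map kills the special elements. -/
theorem tHom_cls_eq_zero [NeZero ℓ] (hℓ : ℓ.Prime) (hℓN : ¬ ℓ ∣ N) (γ : ↥(Gamma0 N))
    (hγ : IsSpecial (γ : SL(2, ℤ))) :
    tHom (A N) hℓ hℓN (cls N) (Additive.ofMul γ) = 0 := by
  classical
  rw [tHom_apply]
  refine BettiA.sum_eq_zero_of_cycles (rPerm hℓ (γ : SL(2, ℤ)))
    (fun x => cls N (Additive.ofMul (coc hℓ hℓN γ x))) fun x k _ hkx => ?_
  rw [← hom_coc_pow (cls N) hℓ hℓN γ k x]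
  refine cls_eq_zero_of_special N ?_
  rw [← mem_peSet_iff_isSpecial, BettiA.mem_peSet,
    BettiA.trG_coc_of_fixed hℓ hℓN (γ ^ k) x (by rw [BettiA.rPerm_pow, hkx])]
  exact BettiA.pow_mem_peSet ((mem_peSet_iff_isSpecial γ).mpr hγ) k

end Tau

/-- **E5.Tau**: the transfer `γ ↦ ∑ₓ cls (coc γ x)` descends to an endomorphism of `A N`. -/
theorem tauStatement (N : ℕ) : TauStatement N := by
  intro ℓ _ hℓ hℓN
  refine ⟨lift N (tHom (A N) hℓ hℓN (cls N))
    (fun γ hγ => Tau.tHom_cls_eq_zero hℓ hℓN γ hγ), fun γ => ?_⟩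
  rw [lift_cls, tHom_apply]

/-- The characterisation of `E5.τ` is now unconditional. -/
theorem τ_cls (N : ℕ) {ℓ : ℕ} [NeZero ℓ] (hℓ : ℓ.Prime) (hℓN : ¬ ℓ ∣ N) (γ : ↥(Gamma0 N)) :
    τ N ℓ (cls N (Additive.ofMul γ)) =
      ∑ x : OnePoint (ZMod ℓ), cls N (Additive.ofMul (BettiHecke.coc hℓ hℓN γ x)) :=
  τ_spec N hℓ hℓN (tauStatement N ℓ hℓ hℓN) γ

/-- `E5.τ` on characters is the group-cohomological Hecke operator `tHom`. -/
theorem comp_τ (N : ℕ) {ℓ : ℕ} [NeZero ℓ] (hℓ : ℓ.Prime) (hℓN : ¬ ℓ ∣ N) {M : Type*}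
    [AddCommGroup M] (c : A N →+ M) :
    (c.comp (τ N ℓ)).comp (cls N) = tHom M hℓ hℓN (c.comp (cls N)) := by
  refine AddMonoidHom.ext fun x => ?_
  obtain ⟨γ, rfl⟩ := Additive.ofMul.surjective x
  rw [AddMonoidHom.comp_apply, AddMonoidHom.comp_apply, τ_cls N hℓ hℓN γ, map_sum, tHom_apply]
  rfl

end Fermat.Agent.S30.E5

end
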