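import Mathlib
import Fermat.Agent.S30.E5.Plan
import Fermat.Agent.S30.BettiHecke.Hom
import Fermat.Agent.S30.BettiHecke.CycleSum

set_option autoImplicit false
set_option linter.dupNamespace false

/-!
# S30 / E5, row `E5.Tau` (insurance copy, helper100): the transfer descends to `E5.A N`

`tauStatement N : E5.TauStatement N`: for a prime `ℓ ∤ N` the map `γ ↦ ∑ₓ cls (coc γ x)` is a
homomorphism (`BettiHecke.tHom`) and it kills the special elements, so it descends to an
endomorphism of `A N = Γ₀(N)^ab / ⟨special⟩`.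

Ingredients:
* `isSpecial_iff : IsSpecial g ↔ tr(g)² ≤ 4`  (fixed point in `ℍ` ⇒ `tr² ≤ 4` by the quadratic
  equation `c τ² + (d - a) τ - b = 0`; `tr² < 4` ⇒ fixed point, the two lemmas below are the
  argument of `Producer.ParEllBrick`, restated here to keep this file on the E5 closure only);
* the cycle lemma `BettiHecke.CycleSum.sum_coc_eq_zero`.
-/

noncomputable section

open scoped MatrixGroups
open UpperHalfPlane CongruenceSubgroup

namespace Fermat.Agent.S30.E5.TauAlt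

/-- An element of `SL(2, ℤ)` with `tr² < 4` has nonzero lower left entry. -/
theorem lower_left_ne_zero_of_trace_sq_lt (g : SL(2, ℤ)) (h : g.1.trace ^ 2 < 4) :
    g 1 0 ≠ 0 := by
  intro hc
  have hdet : g 0 0 * g 1 1 - g 0 1 * g 1 0 = 1 := by
    have := g.det_coe
    rwa [Matrix.det_fin_two] at this
  rw [hc, mul_zero, sub_zero] at hdet
  have htr : (g 0 0 + g 1 1) ^ 2 < 4 := by
    rwa [Matrix.trace_fin_two] at h
  rcases Int.eq_one_or_neg_one_of_mul_eq_one' hdet with ⟨h0, h1⟩ | ⟨h0, h1⟩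
  · rw [h0, h1] at htr
    norm_num at htr
  · rw [h0, h1] at htr
    norm_num at htr

/-- **Elliptic elements have a fixed point.** An element of `SL(2, ℤ)` with `tr² < 4` fixes a
point of the upper half plane. -/
theorem exists_fixed_of_trace_sq_lt (g : SL(2, ℤ)) (h : g.1.trace ^ 2 < 4) :
    ∃ τ : ℍ, g • τ = τ := by
  have hc : g 1 0 ≠ 0 := lower_left_ne_zero_of_trace_sq_lt g h
  have hdet : g 0 0 * g 1 1 - g 0 1 * g 1 0 = 1 := by
    have := g.det_coe
    rwa [Matrix.det_fin_two] at this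
  have htr : (g 0 0 + g 1 1) ^ 2 < 4 := by
    rwa [Matrix.trace_fin_two] at h
  -- real entries
  set A : ℝ := (g 0 0 : ℝ) with hA
  set B : ℝ := (g 0 1 : ℝ) with hB
  set C : ℝ := (g 1 0 : ℝ) with hC
  set D : ℝ := (g 1 1 : ℝ) with hD
  have hdetR : A * D - B * C = 1 := by
    rw [hA, hB, hC, hD]
    exact_mod_cast hdet
  have htrR : (A + D) ^ 2 < 4 := by
    rw [hA, hD]
    exact_mod_cast htr
  have hC0 : C ≠ 0 := by
    rw [hC]
    exact_mod_cast hc
  have hCabs : 0 < |C| := abs_pos.mpr hC0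
  set s : ℝ := Real.sqrt (4 - (A + D) ^ 2) with hs
  have hs2 : s ^ 2 = 4 - (A + D) ^ 2 := Real.sq_sqrt (by linarith)
  have hspos : 0 < s := Real.sqrt_pos.mpr (by linarith)
  set x : ℝ := (A - D) / (2 * C) with hx
  set y : ℝ := s / (2 * |C|) with hy
  have hypos : 0 < y := div_pos hspos (by positivity)
  have hx2 : 2 * C * x = A - D := by
    rw [hx]
    field_simp
  have hy2 : 4 * C ^ 2 * y ^ 2 = s ^ 2 := by
    rw [hy, div_pow, mul_pow, sq_abs]
    field_simp
    norm_num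
  let τ : ℍ := UpperHalfPlane.mk ⟨x, y⟩ hypos
  refine ⟨τ, ?_⟩
  apply UpperHalfPlane.ext
  rw [UpperHalfPlane.coe_specialLinearGroup_apply]
  have hτ : (τ : ℂ) = ⟨x, y⟩ := rfl
  have hden : ((algebraMap ℤ ℝ (g 1 0) : ℝ) : ℂ) * (τ : ℂ) + ((algebraMap ℤ ℝ (g 1 1) : ℝ) : ℂ)
      ≠ 0 := by
    intro h0
    have him := congrArg Complex.im h0
    rw [hτ] at him
    simp only [Complex.add_im, Complex.mul_im, Complex.ofReal_re, Complex.ofReal_im, zero_mul,
      add_zero, Complex.zero_im] at him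
    have : C * y = 0 := him
    rcases mul_eq_zero.mp this with h1 | h1
    · exact hC0 h1
    · exact hypos.ne' h1
  rw [div_eq_iff hden, hτ]
  -- the quadratic equation `c τ² + (d - a) τ - b = 0`
  have hre : A * x + B = x * (C * x + D) - y * (C * y) := by
    have h1 : C * (A * x + B - (x * (C * x + D) - y * (C * y))) * 4 = 0 := by
      have e1 : C * (A * x + B - (x * (C * x + D) - y * (C * y))) * 4
          = 2 * (A - D) * (2 * C * x) + 4 * B * C - (2 * C * x) ^ 2 + 4 * C ^ 2 * y ^ 2 := by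
        ring
      rw [e1, hx2, hy2, hs2]
      linear_combination (-4 : ℝ) * hdetR
    have h2 : A * x + B - (x * (C * x + D) - y * (C * y)) = 0 := by
      rcases mul_eq_zero.mp h1 with h3 | h3
      · rcases mul_eq_zero.mp h3 with h4 | h4
        · exact absurd h4 hC0
        · exact h4
      · norm_num at h3
    linarith
  have him : A * y = x * (C * y) + y * (C * x + D) := by
    have e1 : x * (C * y) + y * (C * x + D) = (2 * C * x) * y + D * y := by ring
    rw [e1, hx2]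
    ring
  apply Complex.ext
  · simp only [Complex.add_re, Complex.mul_re, Complex.ofReal_re, Complex.ofReal_im, zero_mul,
      sub_zero, Complex.add_im, Complex.mul_im, add_zero]
    exact hre
  · simp only [Complex.add_re, Complex.mul_re, Complex.ofReal_re, Complex.ofReal_im, zero_mul,
      sub_zero, Complex.add_im, Complex.mul_im, add_zero]
    exact him

/-- **Fixed point ⇒ `tr² ≤ 4`.** -/
theorem trace_sq_le_of_fixed (g : SL(2, ℤ)) (τ : ℍ) (h : g • τ = τ) : g.1.trace ^ 2 ≤ 4 := by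
  have hdet : g 0 0 * g 1 1 - g 0 1 * g 1 0 = 1 := by
    have := g.det_coe
    rwa [Matrix.det_fin_two] at this
  set A : ℝ := (g 0 0 : ℝ) with hA
  set B : ℝ := (g 0 1 : ℝ) with hB
  set C : ℝ := (g 1 0 : ℝ) with hC
  set D : ℝ := (g 1 1 : ℝ) with hD
  have hdetR : A * D - B * C = 1 := by
    rw [hA, hB, hC, hD]
    exact_mod_cast hdet
  obtain ⟨x, hx⟩ : ∃ x : ℝ, x = (τ : ℂ).re := ⟨_, rfl⟩
  obtain ⟨y, hy⟩ : ∃ y : ℝ, y = (τ : ℂ).im := ⟨_, rfl⟩
  have hypos : 0 < y := by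
    rw [hy]
    exact τ.2
  have hτ : (τ : ℂ) = ⟨x, y⟩ := by
    rw [hx, hy]
  have h1 : ((g • τ : ℍ) : ℂ) = (τ : ℂ) := by rw [h]
  rw [UpperHalfPlane.coe_specialLinearGroup_apply] at h1
  have hden : ((algebraMap ℤ ℝ (g 1 0) : ℝ) : ℂ) * (τ : ℂ) + ((algebraMap ℤ ℝ (g 1 1) : ℝ) : ℂ)
      ≠ 0 := by
    intro h0
    rw [h0, div_zero] at h1
    have him := congrArg Complex.im h1
    rw [hτ] at him
    simp only [Complex.zero_im] at him
    exact hypos.ne him
  rw [div_eq_iff hden, hτ] at h1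
  have hre := congrArg Complex.re h1
  have him := congrArg Complex.im h1
  simp only [Complex.add_re, Complex.mul_re, Complex.ofReal_re, Complex.ofReal_im, zero_mul,
    sub_zero, Complex.add_im, Complex.mul_im, add_zero] at hre him
  have hre' : A * x + B = x * (C * x + D) - y * (C * y) := hre
  have him' : A * y = x * (C * y) + y * (C * x + D) := him
  -- `A - D = 2 C x` and `B = - C (x² + y²)`
  have e1 : A - D - 2 * C * x = 0 := by
    have : y * (A - D - 2 * C * x) = 0 := by linear_combination him'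
    rcases mul_eq_zero.mp this with h2 | h2
    · exact absurd h2 hypos.ne'
    · exact h2
  have e2 : B + C * (x ^ 2 + y ^ 2) = 0 := by
    linear_combination hre' - x * e1
  have key : (A + D) ^ 2 = 4 - 4 * (C * y) ^ 2 := by
    linear_combination (A - D + 2 * C * x) * e1 + 4 * hdetR + 4 * C * e2
  have hR : (A + D) ^ 2 ≤ 4 := by
    rw [key]
    nlinarith [sq_nonneg (C * y)]
  have hZ : (g 0 0 + g 1 1) ^ 2 ≤ (4 : ℤ) := by
    rw [hA, hD] at hR
    exact_mod_cast hR
  rw [Matrix.trace_fin_two]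
  exact hZ

/-- The special elements are exactly those of trace-square at most `4`. -/
theorem isSpecial_iff (g : SL(2, ℤ)) : IsSpecial g ↔ g.1.trace ^ 2 ≤ 4 := by
  constructor
  · rintro (⟨τ, hτ⟩ | h)
    · exact trace_sq_le_of_fixed g τ hτ
    · exact h.le
  · intro h
    rcases h.lt_or_eq with hlt | heq
    · exact Or.inl (exists_fixed_of_trace_sq_lt g hlt)
    · exact Or.inr heq

/-- The transfer of `cls` kills the special elements (cycle lemma). -/
theorem tHom_cls_eq_zero_of_special (N : ℕ) {ℓ : ℕ} [NeZero ℓ] (hℓ : ℓ.Prime) (hℓN : ¬ ℓ ∣ N)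
    (γ : ↥(Gamma0 N)) (hγ : IsSpecial (γ : SL(2, ℤ))) :
    BettiHecke.tHom (A N) hℓ hℓN (cls N) (Additive.ofMul γ) = 0 := by
  rw [BettiHecke.tHom_apply]
  exact BettiHecke.CycleSum.sum_coc_eq_zero hℓ hℓN (cls N)
    (fun g hg => cls_eq_zero_of_special N ((isSpecial_iff _).mpr hg)) γ ((isSpecial_iff _).mp hγ)

/-- The Hecke (transfer) endomorphism of `A N`, explicitly. -/
def tauAlt (N : ℕ) {ℓ : ℕ} [NeZero ℓ] (hℓ : ℓ.Prime) (hℓN : ¬ ℓ ∣ N) : A N →+ A N :=
  lift N (BettiHecke.tHom (A N) hℓ hℓN (cls N)) (tHom_cls_eq_zero_of_special N hℓ hℓN)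

theorem tauAlt_cls (N : ℕ) {ℓ : ℕ} [NeZero ℓ] (hℓ : ℓ.Prime) (hℓN : ¬ ℓ ∣ N) (γ : ↥(Gamma0 N)) :
    tauAlt N hℓ hℓN (cls N (Additive.ofMul γ)) =
      ∑ x : OnePoint (ZMod ℓ), cls N (Additive.ofMul (BettiHecke.coc hℓ hℓN γ x)) := by
  rw [tauAlt, lift_cls, BettiHecke.tHom_apply]

/-- **Row `E5.Tau`.** -/
theorem tauStatement (N : ℕ) : TauStatement N := fun _ _ hℓ hℓN =>
  ⟨tauAlt N hℓ hℓN, tauAlt_cls N hℓ hℓN⟩

/-- `E5.τ` is the transfer: the unconditional form of `E5.τ_spec`. -/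
theorem τ_cls (N : ℕ) {ℓ : ℕ} [NeZero ℓ] (hℓ : ℓ.Prime) (hℓN : ¬ ℓ ∣ N) (γ : ↥(Gamma0 N)) :
    τ N ℓ (cls N (Additive.ofMul γ)) =
      ∑ x : OnePoint (ZMod ℓ), cls N (Additive.ofMul (BettiHecke.coc hℓ hℓN γ x)) :=
  τ_spec N hℓ hℓN (tauStatement N ℓ hℓ hℓN) γ

/-- `c ∘ τ_ℓ` is the group-cohomological Hecke operator applied to `c ∘ cls`. -/
theorem comp_τ (N : ℕ) {ℓ : ℕ} [NeZero ℓ] (hℓ : ℓ.Prime) (hℓN : ¬ ℓ ∣ N) {B : Type*}
    [AddCommGroup B] (c : A N →+ B) :
    (c.comp (τ N ℓ)).comp (cls N) = BettiHecke.tHom B hℓ hℓN (c.comp (cls N)) := by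
  refine AddMonoidHom.ext fun γ => ?_
  have h := τ_cls N hℓ hℓN (Additive.toMul γ)
  rw [AddMonoidHom.comp_apply, AddMonoidHom.comp_apply]
  show c (τ N ℓ (cls N (Additive.ofMul (Additive.toMul γ)))) = _
  rw [h, map_sum]
  rfl

end Fermat.Agent.S30.E5.TauAlt

end
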